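import Fermat.Agent.S51.H52.Five
import Mathlib.AlgebraicGeometry.EllipticCurve.DivisionPolynomial.Degree
import Mathlib.FieldTheory.IsAlgClosed.Basic

/-!
# Counting and existence of 3- and 5-torsion points (helper52, for S51)
-/

set_option autoImplicit false

namespace Fermat.Agent.S51.H52

open WeierstrassCurve WeierstrassCurve.Affine Polynomial

variable {F : Type*} [Field F] (W : Affine F)

/-- Injective encoding of points as optional coordinate pairs. -/
def toPair : W.Point → Option (F × F)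
  | .zero => none
  | .some x y _ => some (x, y)

lemma toPair_injective : Function.Injective (toPair W) := by
  rintro (_ | ⟨x₁, y₁, h₁⟩) (_ | ⟨x₂, y₂, h₂⟩) h <;>
    simp only [toPair, Option.some.injEq, Prod.mk.injEq, reduceCtorEq] at h
  · rfl
  · obtain ⟨rfl, rfl⟩ := h; rfl

/-- The Weierstrass equation as a monic quadratic polynomial in `y`, for fixed `x`. -/
noncomputable def yPoly (x : F) : F[X] :=
  X ^ 2 + C (W.a₁ * x + W.a₃) * X - C (x ^ 3 + W.a₂ * x ^ 2 + W.a₄ * x + W.a₆)

lemma yPoly_monic (x : F) : (yPoly W x).Monic := by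
  unfold yPoly; monicity!

lemma natDegree_yPoly (x : F) : (yPoly W x).natDegree = 2 := by
  unfold yPoly; compute_degree!

lemma isRoot_yPoly_iff (x y : F) : (yPoly W x).IsRoot y ↔ W.Equation x y := by
  rw [equation_iff, IsRoot.def]
  simp only [yPoly, eval_sub, eval_add, eval_pow, eval_X, eval_mul, eval_C]
  constructor <;> intro h <;> linear_combination h

/-- The finite set of coordinate pairs of affine points whose x-coordinate is a root of `p`. -/
noncomputable def pairSet [DecidableEq F] (p : F[X]) : Finset (F × F) :=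
  p.roots.toFinset.biUnion fun x => (yPoly W x).roots.toFinset.image fun y => (x, y)

lemma card_pairSet_le [DecidableEq F] (p : F[X]) : (pairSet W p).card ≤ 2 * p.natDegree := by
  unfold pairSet
  refine (Finset.card_biUnion_le).trans ?_
  have h1 : ∀ x ∈ p.roots.toFinset,
      ((yPoly W x).roots.toFinset.image fun y => (x, y)).card ≤ 2 := by
    intro x _
    refine Finset.card_image_le.trans ?_
    refine (Multiset.toFinset_card_le _).trans ?_
    exact (card_roots' _).trans (natDegree_yPoly W x).le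
  refine (Finset.sum_le_card_nsmul _ _ 2 h1).trans ?_
  rw [smul_eq_mul, mul_comm]
  exact Nat.mul_le_mul_left 2 ((Multiset.toFinset_card_le _).trans (card_roots' _))

lemma toPair_mem [DecidableEq F] {p : F[X]} (hp : p ≠ 0) {P : W.Point} (hP : P ≠ 0)
    (hroot : p.IsRoot (xc W P)) : toPair W P ∈ (insert none ((pairSet W p).image some) : Finset _) := by
  cases P with
  | zero => exact absurd rfl hP
  | some x y h =>
    simp only [toPair, Finset.mem_insert, reduceCtorEq, Finset.mem_image, Option.some.injEq,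
      exists_eq_right, false_or, pairSet, Finset.mem_biUnion, Multiset.mem_toFinset,
      Prod.mk.injEq]
    refine ⟨x, ?_, y, ?_, rfl, rfl⟩
    · exact (mem_roots hp).mpr hroot
    · exact (mem_roots (yPoly_monic W x).ne_zero).mpr ((isRoot_yPoly_iff W x y).mpr h.1)

/-- The set of points that are zero or have x-coordinate a root of the nonzero polynomial `p`
is finite, of cardinality at most `1 + 2 deg p`. -/
lemma ncard_le_of_forall_isRoot {p : F[X]} (hp : p ≠ 0) (S : Set W.Point)
    (hS : ∀ P ∈ S, P ≠ 0 → p.IsRoot (xc W P)) :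
    S.Finite ∧ S.ncard ≤ 1 + 2 * p.natDegree := by
  classical
  set T : Finset (Option (F × F)) := insert none ((pairSet W p).image some) with hT
  have hmaps : ∀ P ∈ S, toPair W P ∈ (T : Set (Option (F × F))) := by
    intro P hPS
    by_cases hP : P = 0
    · subst hP
      simp [hT, toPair]
    · exact toPair_mem W hp hP (hS P hPS hP)
  have hinj : Set.InjOn (toPair W) S := (toPair_injective W).injOn
  have hfin : S.Finite := Set.Finite.of_injOn hmaps hinj T.finite_toSet
  refine ⟨hfin, ?_⟩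
  have h1 := Set.ncard_le_ncard_of_injOn (toPair W) hmaps hinj T.finite_toSet
  rw [Set.ncard_coe_finset] at h1
  refine h1.trans ?_
  refine (Finset.card_insert_le _ _).trans ?_
  have := (Finset.card_image_le (s := pairSet W p) (f := some)).trans (card_pairSet_le W p)
  omega

lemma eval_Ψ₃ (x : F) : (W.Ψ₃).eval x = psi3 W x := by
  simp [Ψ₃, psi3]

lemma eval_Ψ₂Sq (x : F) : (W.Ψ₂Sq).eval x = dD W x := by
  simp [Ψ₂Sq, dD]

lemma eval_preΨ₄ (x : F) : (W.preΨ₄).eval x = dQ W x := by
  simp [preΨ₄, dQ]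

lemma preΨ'_five : W.preΨ' 5 = W.preΨ₄ * W.Ψ₂Sq ^ 2 - W.Ψ₃ ^ 3 := by
  have h := W.preΨ'_odd 0
  simpa using h

lemma eval_preΨ'_five (x : F) : (W.preΨ' 5).eval x = psi5 W x := by
  rw [preΨ'_five]
  simp [eval_Ψ₃, eval_Ψ₂Sq, eval_preΨ₄, psi5]

section Torsion

variable [DecidableEq F]

/-- At most 9 points are killed by 3 (characteristic ≠ 3). -/
lemma three_torsion_finite (h3 : (3 : F) ≠ 0) :
    {P : W.Point | (3 : ℕ) • P = 0}.Finite ∧ {P : W.Point | (3 : ℕ) • P = 0}.ncard ≤ 9 := by
  have hp : W.Ψ₃ ≠ 0 := W.Ψ₃_ne_zero h3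
  have := ncard_le_of_forall_isRoot W hp {P : W.Point | (3 : ℕ) • P = 0} (by
    intro P hP hP0
    rw [IsRoot.def, eval_Ψ₃]
    exact (three_nsmul_eq_zero_iff W hP0).mp hP)
  refine ⟨this.1, this.2.trans ?_⟩
  have := W.natDegree_Ψ₃_le
  omega

/-- At most 25 points are killed by 5 (characteristic ≠ 5). -/
lemma five_torsion_finite (h5 : (5 : F) ≠ 0) :
    {P : W.Point | (5 : ℕ) • P = 0}.Finite ∧ {P : W.Point | (5 : ℕ) • P = 0}.ncard ≤ 25 := by
  have hp : W.preΨ' 5 ≠ 0 := W.preΨ'_ne_zero (by exact_mod_cast h5)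
  have := ncard_le_of_forall_isRoot W hp {P : W.Point | (5 : ℕ) • P = 0} (by
    intro P hP hP0
    rw [IsRoot.def, eval_preΨ'_five]
    exact psi5_eq_zero_of_five_nsmul W hP0 hP)
  refine ⟨this.1, this.2.trans ?_⟩
  have := W.natDegree_preΨ'_le 5
  norm_num at this
  omega

variable [IsAlgClosed F]

omit [DecidableEq F] in
/-- Over an algebraically closed field, every `x` is the x-coordinate of a point when `Δ ≠ 0`. -/
lemma exists_point_of_x (hΔ : W.Δ ≠ 0) (x : F) : ∃ P : W.Point, P ≠ 0 ∧ xc W P = x := by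
  obtain ⟨y, hy⟩ := IsAlgClosed.exists_root (yPoly W x) (by
    rw [degree_eq_natDegree (yPoly_monic W x).ne_zero, natDegree_yPoly]; norm_num)
  have heq : W.Equation x y := (isRoot_yPoly_iff W x y).mp hy
  have hns : W.Nonsingular x y := (W.equation_iff_nonsingular_of_Δ_ne_zero hΔ).mp heq
  exact ⟨Point.some x y hns, Point.some_ne_zero hns, rfl⟩

/-- Existence of a nonzero 3-torsion point. -/
lemma exists_three_torsion (hΔ : W.Δ ≠ 0) (h3 : (3 : F) ≠ 0) :
    ∃ P : W.Point, P ≠ 0 ∧ (3 : ℕ) • P = 0 := by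
  obtain ⟨x, hx⟩ := IsAlgClosed.exists_root W.Ψ₃ (by
    rw [degree_eq_natDegree (W.Ψ₃_ne_zero h3), W.natDegree_Ψ₃ h3]; norm_num)
  obtain ⟨P, hP, rfl⟩ := exists_point_of_x W hΔ x
  refine ⟨P, hP, (three_nsmul_eq_zero_iff W hP).mpr ?_⟩
  rw [← eval_Ψ₃]; exact hx

/-- Existence of a nonzero 5-torsion point. -/
lemma exists_five_torsion (hΔ : W.Δ ≠ 0) (h5 : (5 : F) ≠ 0) :
    ∃ P : W.Point, P ≠ 0 ∧ (5 : ℕ) • P = 0 := by
  have h5' : ((5 : ℕ) : F) ≠ 0 := by exact_mod_cast h5
  obtain ⟨x, hx⟩ := IsAlgClosed.exists_root (W.preΨ' 5) (by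
    rw [degree_eq_natDegree (W.preΨ'_ne_zero h5')]
    exact_mod_cast (W.natDegree_preΨ'_pos (by norm_num) h5').ne')
  obtain ⟨P, hP, rfl⟩ := exists_point_of_x W hΔ x
  refine ⟨P, hP, five_nsmul_eq_zero_of_psi5 W hP ?_⟩
  rw [← eval_preΨ'_five]; exact hx

end Torsion

end Fermat.Agent.S51.H52
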