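import Mathlib.AlgebraicGeometry.EllipticCurve.Affine.Point

/-!
# x-coordinate calculus for affine points of a Weierstrass curve (helper52, for S51)

`xc P` is the x-coordinate of a point (junk value `0` at infinity). We prove the duplication
formula `x(2P) * D(x) = N(x)` and the characterisation of 2- and 3-torsion via x-coordinates.
-/

set_option autoImplicit false

namespace Fermat.Agent.S51.H52

open WeierstrassCurve WeierstrassCurve.Affine

variable {F : Type*} [Field F] (W : Affine F)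

/-- The x-coordinate of a point, with junk value `0` at the point at infinity. -/
def xc : W.Point → F
  | .zero => 0
  | .some x _ _ => x

/-- The cubic `4x³ + b₂x² + 2b₄x + b₆` (square of the 2-division polynomial). -/
def dD (x : F) : F := 4 * x ^ 3 + W.b₂ * x ^ 2 + 2 * W.b₄ * x + W.b₆

/-- The numerator `x⁴ - b₄x² - 2b₆x - b₈` of the duplication formula. -/
def dN (x : F) : F := x ^ 4 - W.b₄ * x ^ 2 - 2 * W.b₆ * x - W.b₈

/-- The 3-division polynomial `3x⁴ + b₂x³ + 3b₄x² + 3b₆x + b₈`. -/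
def psi3 (x : F) : F := 3 * x ^ 4 + W.b₂ * x ^ 3 + 3 * W.b₄ * x ^ 2 + 3 * W.b₆ * x + W.b₈

lemma psi3_eq (x : F) : psi3 W x = x * dD W x - dN W x := by
  simp only [psi3, dD, dN]; ring

@[simp] lemma xc_zero : xc W (0 : W.Point) = 0 := rfl

@[simp] lemma xc_some {x y : F} (h : W.Nonsingular x y) : xc W (Point.some x y h) = x := rfl

@[simp] lemma xc_neg (P : W.Point) : xc W (-P) = xc W P := by
  cases P <;> rfl

lemma dD_eq_sq {x y : F} (h : W.Equation x y) : dD W x = (y - W.negY x y) ^ 2 := by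
  rw [equation_iff] at h
  simp only [dD, negY, b₂, b₄, b₆]
  linear_combination (-4) * h

lemma xc_eq_iff {P Q : W.Point} (hP : P ≠ 0) (hQ : Q ≠ 0) :
    xc W P = xc W Q ↔ P = Q ∨ P = -Q := by
  cases P with
  | zero => exact absurd rfl hP
  | some x₁ y₁ h₁ =>
    cases Q with
    | zero => exact absurd rfl hQ
    | some x₂ y₂ h₂ => exact Point.X_eq_iff

/-- A nonsingular point with `D(x) = 0` has `ψ₃(x) ≠ 0`. -/
lemma psi3_ne_zero_of_dD_eq_zero {x y : F} (h : W.Nonsingular x y) (hD : dD W x = 0) :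
    psi3 W x ≠ 0 := by
  rw [nonsingular_iff'] at h
  obtain ⟨heq, hns⟩ := h
  have ht : 2 * y + W.a₁ * x + W.a₃ = 0 := by
    have h2 := dD_eq_sq W heq
    rw [hD] at h2
    have h3 : y - W.negY x y = 0 := by
      exact pow_eq_zero_iff (two_ne_zero) |>.mp h2.symm
    simp only [negY] at h3
    linear_combination h3
  have hx : W.a₁ * y - (3 * x ^ 2 + 2 * W.a₂ * x + W.a₄) ≠ 0 := by
    rcases hns with hns | hns
    · exact hns
    · exact absurd ht hns
  rw [equation_iff] at heq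
  have key : psi3 W x = -(W.a₁ * y - (3 * x ^ 2 + 2 * W.a₂ * x + W.a₄)) ^ 2 := by
    simp only [psi3, b₂, b₄, b₆, b₈]
    linear_combination (6 * x * y + W.a₁ ^ 2 * y + 2 * W.a₂ * y - W.a₁ * W.a₂ * x + 3 * W.a₃ * x
      - W.a₁ * W.a₄ + W.a₂ * W.a₃) * ht + (-(12 * x + W.a₁ ^ 2 + 4 * W.a₂)) * heq
  rw [key]
  exact neg_ne_zero.mpr (pow_ne_zero 2 hx)

variable [DecidableEq F]

lemma two_nsmul_some_eq_zero_iff {x y : F} (h : W.Nonsingular x y) :
    (2 : ℕ) • Point.some x y h = 0 ↔ dD W x = 0 := by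
  rw [two_nsmul, dD_eq_sq W h.1, sq_eq_zero_iff, sub_eq_zero]
  constructor
  · intro h0
    by_contra hy
    rw [Point.add_self_of_Y_ne hy] at h0
    exact Point.some_ne_zero _ h0
  · intro hy
    exact Point.add_self_of_Y_eq hy

lemma xc_two_nsmul_some {x y : F} (h : W.Nonsingular x y) (hD : dD W x ≠ 0) :
    xc W ((2 : ℕ) • Point.some x y h) * dD W x = dN W x := by
  have hy : y ≠ W.negY x y := by
    intro hy
    apply hD
    rw [dD_eq_sq W h.1, sq_eq_zero_iff, sub_eq_zero]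
    exact hy
  have ht : y - W.negY x y ≠ 0 := sub_ne_zero.mpr hy
  rw [two_nsmul, Point.add_self_of_Y_ne hy, xc_some, slope_of_Y_ne rfl hy, dD_eq_sq W h.1]
  have heq := (equation_iff _ _).mp h.1
  set ℓ := (3 * x ^ 2 + 2 * W.a₂ * x + W.a₄ - W.a₁ * y) / (y - W.negY x y) with hℓ
  have hℓt : ℓ * (y - W.negY x y) = 3 * x ^ 2 + 2 * W.a₂ * x + W.a₄ - W.a₁ * y :=
    div_mul_cancel₀ _ ht
  simp only [addX, dN, b₄, b₆, b₈, negY] at *
  linear_combination (ℓ * (y - (-y - W.a₁ * x - W.a₃)) + (3 * x ^ 2 + 2 * W.a₂ * x + W.a₄ - W.a₁ * y)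
    + W.a₁ * (y - (-y - W.a₁ * x - W.a₃))) * hℓt + (-(8 * x + W.a₁ ^ 2 + 4 * W.a₂)) * heq

lemma two_nsmul_eq_zero_iff {P : W.Point} (hP : P ≠ 0) :
    (2 : ℕ) • P = 0 ↔ dD W (xc W P) = 0 := by
  cases P with
  | zero => exact absurd rfl hP
  | some x y h => exact two_nsmul_some_eq_zero_iff W h

lemma xc_two_nsmul {P : W.Point} (h2 : (2 : ℕ) • P ≠ 0) :
    xc W ((2 : ℕ) • P) * dD W (xc W P) = dN W (xc W P) := by
  cases P with
  | zero => exact absurd (smul_zero 2) h2
  | some x y h =>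
    exact xc_two_nsmul_some W h (fun hD => h2 ((two_nsmul_some_eq_zero_iff W h).mpr hD))

lemma dD_ne_zero_of_two_nsmul_ne_zero {P : W.Point} (h2 : (2 : ℕ) • P ≠ 0) :
    dD W (xc W P) ≠ 0 := by
  have hP : P ≠ 0 := by rintro rfl; exact h2 (smul_zero 2)
  exact fun hD => h2 ((two_nsmul_eq_zero_iff W hP).mpr hD)

/-- Characterisation of nonzero 3-torsion points by the 3-division polynomial. -/
lemma three_nsmul_eq_zero_iff {P : W.Point} (hP : P ≠ 0) :
    (3 : ℕ) • P = 0 ↔ psi3 W (xc W P) = 0 := by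
  have h3 : (3 : ℕ) • P = (2 : ℕ) • P + P := by
    rw [show (3 : ℕ) = 2 + 1 from rfl, add_nsmul, one_nsmul]
  constructor
  · intro h
    have h2 : (2 : ℕ) • P = -P := by
      rw [h3] at h
      exact eq_neg_of_add_eq_zero_left h
    have h2ne : (2 : ℕ) • P ≠ 0 := by
      rw [h2]; exact neg_ne_zero.mpr hP
    have hx := xc_two_nsmul W h2ne
    rw [h2, xc_neg] at hx
    rw [psi3_eq, hx, sub_self]
  · intro h
    have hD : dD W (xc W P) ≠ 0 := by
      intro hD
      cases P with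
      | zero => exact hP rfl
      | some x y hxy => exact psi3_ne_zero_of_dD_eq_zero W hxy hD h
    have h2ne : (2 : ℕ) • P ≠ 0 := fun h2 => hD ((two_nsmul_eq_zero_iff W hP).mp h2)
    have hx := xc_two_nsmul W h2ne
    rw [psi3_eq, sub_eq_zero] at h
    have hxx : xc W ((2 : ℕ) • P) = xc W P := by
      apply mul_right_cancel₀ hD
      rw [hx, h]
    rcases (xc_eq_iff W h2ne hP).mp hxx with h2 | h2
    · exfalso
      apply hP
      have : (2 : ℕ) • P = P + P := two_nsmul P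
      rw [this] at h2
      exact add_eq_right.mp h2 |> fun h => h
    · rw [h3, h2, neg_add_cancel]

end Fermat.Agent.S51.H52
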