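import Fermat.Agent.S51.H52.Dup

/-!
# 5-torsion via x-coordinates (helper52, for S51)

`psi5 W x = Q(x) D(x)² - ψ₃(x)³` is the 5-division polynomial (in `x` only).
For a nonzero point `P`: `5 • P = 0 ↔ psi5 W (xc W P) = 0`.
-/

set_option autoImplicit false

namespace Fermat.Agent.S51.H52

open WeierstrassCurve WeierstrassCurve.Affine

variable {F : Type*} [Field F] (W : Affine F)

/-- The polynomial `preΨ₄ = ψ₄/ψ₂` evaluated at `x`. -/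
def dQ (x : F) : F :=
  2 * x ^ 6 + W.b₂ * x ^ 5 + 5 * W.b₄ * x ^ 4 + 10 * W.b₆ * x ^ 3 + 10 * W.b₈ * x ^ 2 +
    (W.b₂ * W.b₈ - W.b₄ * W.b₆) * x + (W.b₄ * W.b₈ - W.b₆ ^ 2)

/-- The 5-division polynomial evaluated at `x`. -/
def psi5 (x : F) : F := dQ W x * dD W x ^ 2 - psi3 W x ^ 3

/-- If `x₂ = N(x)/D(x)` then `D(x₂) D(x)³ = Q(x)²`. -/
lemma key4 (x x₂ : F) (h1 : x₂ * dD W x = dN W x) : dD W x₂ * dD W x ^ 3 = dQ W x ^ 2 := by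
  have hR := W.b_relation
  simp only [dD, dN, dQ] at *
  linear_combination
    (4 * ((x₂ * (4 * x ^ 3 + W.b₂ * x ^ 2 + 2 * W.b₄ * x + W.b₆)) ^ 2
        + (x₂ * (4 * x ^ 3 + W.b₂ * x ^ 2 + 2 * W.b₄ * x + W.b₆))
          * (x ^ 4 - W.b₄ * x ^ 2 - 2 * W.b₆ * x - W.b₈)
        + (x ^ 4 - W.b₄ * x ^ 2 - 2 * W.b₆ * x - W.b₈) ^ 2)
      + W.b₂ * (4 * x ^ 3 + W.b₂ * x ^ 2 + 2 * W.b₄ * x + W.b₆)
        * (x₂ * (4 * x ^ 3 + W.b₂ * x ^ 2 + 2 * W.b₄ * x + W.b₆)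
          + (x ^ 4 - W.b₄ * x ^ 2 - 2 * W.b₆ * x - W.b₈))
      + 2 * W.b₄ * (4 * x ^ 3 + W.b₂ * x ^ 2 + 2 * W.b₄ * x + W.b₆) ^ 2) * h1
    + (-W.b₈ ^ 2 - 22 * W.b₈ * x ^ 4 - 4 * W.b₈ * x ^ 3 * W.b₂ - 8 * W.b₈ * x ^ 2 * W.b₄
      - 6 * W.b₈ * x * W.b₆ - 13 * x ^ 8 - 8 * x ^ 7 * W.b₂ - x ^ 6 * W.b₂ ^ 2 - 28 * x ^ 6 * W.b₄
      - 6 * x ^ 5 * W.b₂ * W.b₄ - 38 * x ^ 5 * W.b₆ - 7 * x ^ 4 * W.b₂ * W.b₆ - 8 * x ^ 4 * W.b₄ ^ 2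
      - 16 * x ^ 3 * W.b₄ * W.b₆ - 7 * x ^ 2 * W.b₆ ^ 2) * hR

/-- If `x₂ = N(x)/D(x)` then `D(x)⁴ (x D(x₂) - N(x₂)) = ψ₃(x) ψ₅(x)`. -/
lemma key5 (x x₂ : F) (h1 : x₂ * dD W x = dN W x) :
    dD W x ^ 4 * (x * dD W x₂ - dN W x₂) = psi3 W x * psi5 W x := by
  have hR := W.b_relation
  simp only [psi5, psi3, dD, dN, dQ] at *
  linear_combination
    (x * (4 * x ^ 3 + W.b₂ * x ^ 2 + 2 * W.b₄ * x + W.b₆)
        * (4 * ((x₂ * (4 * x ^ 3 + W.b₂ * x ^ 2 + 2 * W.b₄ * x + W.b₆)) ^ 2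
            + (x₂ * (4 * x ^ 3 + W.b₂ * x ^ 2 + 2 * W.b₄ * x + W.b₆))
              * (x ^ 4 - W.b₄ * x ^ 2 - 2 * W.b₆ * x - W.b₈)
            + (x ^ 4 - W.b₄ * x ^ 2 - 2 * W.b₆ * x - W.b₈) ^ 2)
          + W.b₂ * (4 * x ^ 3 + W.b₂ * x ^ 2 + 2 * W.b₄ * x + W.b₆)
            * (x₂ * (4 * x ^ 3 + W.b₂ * x ^ 2 + 2 * W.b₄ * x + W.b₆)
              + (x ^ 4 - W.b₄ * x ^ 2 - 2 * W.b₆ * x - W.b₈))
          + 2 * W.b₄ * (4 * x ^ 3 + W.b₂ * x ^ 2 + 2 * W.b₄ * x + W.b₆) ^ 2)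
      - (((x₂ * (4 * x ^ 3 + W.b₂ * x ^ 2 + 2 * W.b₄ * x + W.b₆)) ^ 3
            + (x₂ * (4 * x ^ 3 + W.b₂ * x ^ 2 + 2 * W.b₄ * x + W.b₆)) ^ 2
              * (x ^ 4 - W.b₄ * x ^ 2 - 2 * W.b₆ * x - W.b₈)
            + (x₂ * (4 * x ^ 3 + W.b₂ * x ^ 2 + 2 * W.b₄ * x + W.b₆))
              * (x ^ 4 - W.b₄ * x ^ 2 - 2 * W.b₆ * x - W.b₈) ^ 2
            + (x ^ 4 - W.b₄ * x ^ 2 - 2 * W.b₆ * x - W.b₈) ^ 3)
          - W.b₄ * (4 * x ^ 3 + W.b₂ * x ^ 2 + 2 * W.b₄ * x + W.b₆) ^ 2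
            * (x₂ * (4 * x ^ 3 + W.b₂ * x ^ 2 + 2 * W.b₄ * x + W.b₆)
              + (x ^ 4 - W.b₄ * x ^ 2 - 2 * W.b₆ * x - W.b₈))
          - 2 * W.b₆ * (4 * x ^ 3 + W.b₂ * x ^ 2 + 2 * W.b₄ * x + W.b₆) ^ 3)) * h1
    - (16 * W.b₈ * x ^ 8 + 8 * W.b₈ * x ^ 7 * W.b₂ + W.b₈ * x ^ 6 * W.b₂ ^ 2 + 16 * W.b₈ * x ^ 6 * W.b₄
      + 4 * W.b₈ * x ^ 5 * W.b₂ * W.b₄ + 8 * W.b₈ * x ^ 5 * W.b₆ + 2 * W.b₈ * x ^ 4 * W.b₂ * W.b₆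
      + 4 * W.b₈ * x ^ 4 * W.b₄ ^ 2 + 4 * W.b₈ * x ^ 3 * W.b₄ * W.b₆ + W.b₈ * x ^ 2 * W.b₆ ^ 2
      + 48 * x ^ 12 + 40 * x ^ 11 * W.b₂ + 11 * x ^ 10 * W.b₂ ^ 2 + 96 * x ^ 10 * W.b₄
      + x ^ 9 * W.b₂ ^ 3 + 52 * x ^ 9 * W.b₂ * W.b₄ + 72 * x ^ 9 * W.b₆ + 7 * x ^ 8 * W.b₂ ^ 2 * W.b₄
      + 38 * x ^ 8 * W.b₂ * W.b₆ + 60 * x ^ 8 * W.b₄ ^ 2 + 5 * x ^ 7 * W.b₂ ^ 2 * W.b₆
      + 16 * x ^ 7 * W.b₂ * W.b₄ ^ 2 + 84 * x ^ 7 * W.b₄ * W.b₆ + 22 * x ^ 6 * W.b₂ * W.b₄ * W.b₆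
      + 12 * x ^ 6 * W.b₄ ^ 3 + 27 * x ^ 6 * W.b₆ ^ 2 + 7 * x ^ 5 * W.b₂ * W.b₆ ^ 2
      + 24 * x ^ 5 * W.b₄ ^ 2 * W.b₆ + 15 * x ^ 4 * W.b₄ * W.b₆ ^ 2 + 3 * x ^ 3 * W.b₆ ^ 3) * hR


variable [DecidableEq F]

/-- Data attached to a nonzero 5-torsion point. -/
lemma five_torsion_data {P : W.Point} (hP : P ≠ 0) (h5 : (5 : ℕ) • P = 0) :
    (2 : ℕ) • P ≠ 0 ∧ xc W P ≠ xc W ((2 : ℕ) • P) ∧
    dD W (xc W P) ≠ 0 ∧ dD W (xc W ((2 : ℕ) • P)) ≠ 0 ∧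
    xc W ((2 : ℕ) • P) * dD W (xc W P) = dN W (xc W P) ∧
    xc W P * dD W (xc W ((2 : ℕ) • P)) = dN W (xc W ((2 : ℕ) • P)) ∧
    psi3 W (xc W P) ≠ 0 := by
  have h2 : (2 : ℕ) • P ≠ 0 := by
    intro h2
    apply hP
    have : P = (5 : ℕ) • P - (2 : ℕ) • ((2 : ℕ) • P) := by abel
    rw [this, h5, h2, smul_zero, sub_zero]
  have h3 : (3 : ℕ) • P ≠ 0 := by
    intro h3
    apply hP
    have : P = (2 : ℕ) • ((3 : ℕ) • P) - (5 : ℕ) • P := by abel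
    rw [this, h5, h3, smul_zero, sub_zero]
  have h4 : (2 : ℕ) • ((2 : ℕ) • P) = -P := by
    have : (2 : ℕ) • ((2 : ℕ) • P) = (5 : ℕ) • P - P := by abel
    rw [this, h5, zero_sub]
  have h4ne : (2 : ℕ) • ((2 : ℕ) • P) ≠ 0 := by
    rw [h4]; exact neg_ne_zero.mpr hP
  have hψ : psi3 W (xc W P) ≠ 0 := fun h => h3 ((three_nsmul_eq_zero_iff W hP).mpr h)
  have hx1 := xc_two_nsmul W h2
  have hx2 := xc_two_nsmul W h4ne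
  rw [h4, xc_neg] at hx2
  refine ⟨h2, ?_, dD_ne_zero_of_two_nsmul_ne_zero W h2, dD_ne_zero_of_two_nsmul_ne_zero W h4ne,
    hx1, hx2, hψ⟩
  intro hxx
  rcases (xc_eq_iff W hP h2).mp hxx with h | h
  · apply hP
    have : P = (2 : ℕ) • P - P := by abel
    rw [this, ← h, sub_self]
  · apply h3
    have e : (3 : ℕ) • P = (2 : ℕ) • P + P := by abel
    have h' : (2 : ℕ) • P = -P := neg_eq_iff_eq_neg.mp h.symm
    rw [e, h', neg_add_cancel]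

/-- The x-coordinate of a nonzero 5-torsion point is a root of the 5-division polynomial. -/
lemma psi5_eq_zero_of_five_nsmul {P : W.Point} (hP : P ≠ 0) (h5 : (5 : ℕ) • P = 0) :
    psi5 W (xc W P) = 0 := by
  obtain ⟨-, -, hD, -, hx1, hx2, hψ⟩ := five_torsion_data W hP h5
  have key := key5 W (xc W P) (xc W ((2 : ℕ) • P)) hx1
  rw [hx2, sub_self, mul_zero] at key
  rcases mul_eq_zero.mp key.symm with h | h
  · exact absurd h hψ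
  · exact h

/-- A nonzero point whose x-coordinate is a root of the 5-division polynomial is 5-torsion. -/
lemma five_nsmul_eq_zero_of_psi5 {P : W.Point} (hP : P ≠ 0) (h : psi5 W (xc W P) = 0) :
    (5 : ℕ) • P = 0 := by
  have hns : ∀ (hD : dD W (xc W P) = 0), psi3 W (xc W P) ≠ 0 := by
    intro hD
    cases P with
    | zero => exact absurd rfl hP
    | some x y hxy => exact psi3_ne_zero_of_dD_eq_zero W hxy hD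
  -- (i) D(x) ≠ 0
  have hD : dD W (xc W P) ≠ 0 := by
    intro hD
    apply hns hD
    have : psi3 W (xc W P) ^ 3 = 0 := by
      have h' := h
      simp only [psi5, hD] at h'
      linear_combination -h'
    exact pow_eq_zero_iff (by norm_num) |>.mp this
  have h2 : (2 : ℕ) • P ≠ 0 := fun h2 => hD ((two_nsmul_eq_zero_iff W hP).mp h2)
  have hx1 := xc_two_nsmul W h2
  have k4 := key4 W (xc W P) (xc W ((2 : ℕ) • P)) hx1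
  have k5 := key5 W (xc W P) (xc W ((2 : ℕ) • P)) hx1
  -- (iii) ψ₃(x) ≠ 0
  have hψ : psi3 W (xc W P) ≠ 0 := by
    intro hψ
    have h3 : (3 : ℕ) • P = 0 := (three_nsmul_eq_zero_iff W hP).mpr hψ
    have hQ : dQ W (xc W P) = 0 := by
      have h' := h
      simp only [psi5, hψ] at h'
      have : dQ W (xc W P) * dD W (xc W P) ^ 2 = 0 := by linear_combination h'
      rcases mul_eq_zero.mp this with hq | hq
      · exact hq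
      · exact absurd (pow_eq_zero_iff (by norm_num) |>.mp hq) hD
    rw [hQ] at k4
    have hD2 : dD W (xc W ((2 : ℕ) • P)) = 0 := by
      rcases mul_eq_zero.mp (k4.trans (by ring)) with hq | hq
      · exact hq
      · exact absurd (pow_eq_zero_iff (by norm_num) |>.mp hq) hD
    have h4 : (2 : ℕ) • ((2 : ℕ) • P) = 0 := (two_nsmul_eq_zero_iff W h2).mpr hD2
    apply hP
    have : P = (2 : ℕ) • ((2 : ℕ) • P) - (3 : ℕ) • P := by abel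
    rw [this, h4, h3, sub_zero]
  -- (iv) Q(x) ≠ 0, hence D(x₂) ≠ 0
  have hQ : dQ W (xc W P) ≠ 0 := by
    intro hQ
    apply hψ
    have h' := h
    simp only [psi5, hQ] at h'
    have : psi3 W (xc W P) ^ 3 = 0 := by linear_combination -h'
    exact pow_eq_zero_iff (by norm_num) |>.mp this
  have hD2 : dD W (xc W ((2 : ℕ) • P)) ≠ 0 := by
    intro hD2
    rw [hD2, zero_mul] at k4
    exact hQ (pow_eq_zero_iff (by norm_num) |>.mp k4.symm)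
  have h4 : (2 : ℕ) • ((2 : ℕ) • P) ≠ 0 := fun h4 => hD2 ((two_nsmul_eq_zero_iff W h2).mp h4)
  have hx2 := xc_two_nsmul W h4
  -- (vi) x(4P) = x(P)
  rw [h, mul_zero] at k5
  have hg2 : xc W P * dD W (xc W ((2 : ℕ) • P)) = dN W (xc W ((2 : ℕ) • P)) := by
    rcases mul_eq_zero.mp k5 with hq | hq
    · exact absurd (pow_eq_zero_iff (by norm_num) |>.mp hq) hD
    · exact sub_eq_zero.mp hq
  have hxx : xc W ((2 : ℕ) • ((2 : ℕ) • P)) = xc W P := by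
    apply mul_right_cancel₀ hD2
    rw [hx2, hg2]
  rcases (xc_eq_iff W h4 hP).mp hxx with h' | h'
  · exfalso
    apply hψ
    apply (three_nsmul_eq_zero_iff W hP).mp
    have : (3 : ℕ) • P = (2 : ℕ) • ((2 : ℕ) • P) - P := by abel
    rw [this, h', sub_self]
  · have : (5 : ℕ) • P = (2 : ℕ) • ((2 : ℕ) • P) + P := by abel
    rw [this, h', neg_add_cancel]

end Fermat.Agent.S51.H52
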