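import Mathlib.FieldTheory.Finiteness
import Mathlib.FieldTheory.Galois.Infinite
import Mathlib.LinearAlgebra.FiniteDimensional.Lemmas
import Mathlib.FieldTheory.IsAlgClosed.AlgebraicClosure
import Mathlib.Data.ZMod.Basic
import Mathlib.Algebra.Field.ZMod

/-!
# Generic linear algebra / Galois lemmas (helper52, for S51)
-/

set_option autoImplicit false

namespace Fermat.Agent.S51.H52

/-- In a finite `ZMod p`-vector space with fewer than `p³` elements, a submodule that is
neither `⊥` nor `⊤` is a line: it is spanned by any of its nonzero elements. -/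
lemma exists_smul_eq_of_ne_bot_ne_top {p : ℕ} [Fact p.Prime] {V : Type*} [AddCommGroup V]
    [Module (ZMod p) V] [Finite V] (hV : Nat.card V < p ^ 3) (N : Submodule (ZMod p) V)
    (h0 : N ≠ ⊥) (h1 : N ≠ ⊤) {v : V} (hv : v ∈ N) (hv0 : v ≠ 0) :
    ∀ w ∈ N, ∃ c : ZMod p, c • v = w := by
  have : Module.Finite (ZMod p) V := Module.Finite.of_finite
  have hp : 1 < p := (Fact.out : p.Prime).one_lt
  have hcard : Nat.card V = p ^ Module.finrank (ZMod p) V := by
    rw [Module.natCard_eq_pow_finrank (K := ZMod p), Nat.card_zmod]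
  have hd : Module.finrank (ZMod p) V < 3 := by
    rw [hcard] at hV
    exact (Nat.pow_lt_pow_iff_right hp).mp hV
  have hN : Module.finrank (ZMod p) N < Module.finrank (ZMod p) V := Submodule.finrank_lt h1
  have hN0 : Module.finrank (ZMod p) N ≠ 0 := by
    intro h
    exact h0 (Submodule.finrank_eq_zero.mp h)
  have hN1 : Module.finrank (ZMod p) N = 1 := by omega
  intro w hw
  have hv' : (⟨v, hv⟩ : N) ≠ 0 := fun h => hv0 (congrArg Subtype.val h)
  obtain ⟨c, hc⟩ := (finrank_eq_one_iff_of_nonzero' (⟨v, hv⟩ : N) hv').mp hN1 ⟨w, hw⟩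
  exact ⟨c, congrArg Subtype.val hc⟩

/-- An element of `ℚ̄` fixed by the absolute Galois group is rational. -/
lemma exists_rat_of_fixed (x : AlgebraicClosure ℚ)
    (h : ∀ σ : AlgebraicClosure ℚ ≃ₐ[ℚ] AlgebraicClosure ℚ, σ x = x) :
    ∃ q : ℚ, algebraMap ℚ (AlgebraicClosure ℚ) q = x := by
  have := (InfiniteGalois.mem_range_algebraMap_iff_fixed (k := ℚ) (K := AlgebraicClosure ℚ) x).mpr h
  exact this

end Fermat.Agent.S51.H52
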