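import Fermat.Agent.S51.H52.Count
import Fermat.Agent.S51.H52.Lin
import Fermat.Prelude.Def_FLTPrelim_GaloisRep

/-!
# Reducible mod-3 / mod-5 representation ⇒ rational algebraic data (helper52, for S51)
-/

set_option autoImplicit false

open WeierstrassCurve WeierstrassCurve.Affine WeierstrassCurve.Affine.Point

namespace Fermat.Agent.S51.H52

/-- Transfer of finiteness / cardinality from the set `{P | n • P = 0}` to `torsionBy ℤ G n`. -/
lemma card_torsionBy_le {G : Type*} [AddCommGroup G] (n : ℕ) {b : ℕ}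
    (h : {P : G | n • P = 0}.Finite ∧ {P : G | n • P = 0}.ncard ≤ b) :
    Finite (Submodule.torsionBy ℤ G (n : ℤ)) ∧ Nat.card (Submodule.torsionBy ℤ G (n : ℤ)) ≤ b := by
  have hset : ((Submodule.torsionBy ℤ G (n : ℤ) : Submodule ℤ G) : Set G) = {P : G | n • P = 0} := by
    ext P
    simp only [SetLike.mem_coe, Submodule.mem_torsionBy_iff, natCast_zsmul, Set.mem_ofPred_eq]
  have hfin : ((Submodule.torsionBy ℤ G (n : ℤ) : Submodule ℤ G) : Set G).Finite := by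
    rw [hset]; exact h.1
  refine ⟨hfin.to_subtype, ?_⟩
  have : Nat.card (Submodule.torsionBy ℤ G (n : ℤ)) =
      ((Submodule.torsionBy ℤ G (n : ℤ) : Submodule ℤ G) : Set G).ncard :=
    Nat.card_coe_set_eq _
  rw [this, hset]
  exact h.2

/-- Short-form relations for the symmetric functions of `X(Q), X(2Q)` (`5 • Q = 0`), deduced
from the two duplication identities in general Weierstrass form. -/
lemma quad_relations {K : Type*} [Field K] [CharZero K] (b2 b4 b6 b8 x1 x2 : K)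
    (hR : 4 * b8 = b2 * b6 - b4 ^ 2)
    (h1 : x2 * (4 * x1 ^ 3 + b2 * x1 ^ 2 + 2 * b4 * x1 + b6)
      = x1 ^ 4 - b4 * x1 ^ 2 - 2 * b6 * x1 - b8)
    (h2 : x1 * (4 * x2 ^ 3 + b2 * x2 ^ 2 + 2 * b4 * x2 + b6)
      = x2 ^ 4 - b4 * x2 ^ 2 - 2 * b6 * x2 - b8)
    (hne : x1 ≠ x2) (A B u v : K)
    (hA : A = -27 * (b2 ^ 2 - 24 * b4)) (hB : B = -54 * (-b2 ^ 3 + 36 * b2 * b4 - 216 * b6))
    (hu : u = -(36 * (x1 + x2) + 6 * b2))
    (hv : v = 1296 * (x1 * x2) + 108 * b2 * (x1 + x2) + 9 * b2 ^ 2) :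
    u ^ 2 - 4 * v ≠ 0 ∧ -u ^ 3 + 6 * u * v + 2 * A * u - 4 * B = 0 ∧
      A ^ 2 - 2 * A * v + 5 * v ^ 2 - u ^ 2 * v + 4 * u * B = 0 := by
  have hsub : x1 - x2 ≠ 0 := sub_ne_zero.mpr hne
  have e1 : u ^ 2 - 4 * v = 1296 * (x1 - x2) ^ 2 := by rw [hu, hv]; ring
  have key2 : (x1 - x2) * (-u ^ 3 + 6 * u * v + 2 * A * u - 4 * B) = 0 := by
    rw [hu, hv, hA, hB]
    linear_combination (-46656 : K) * h1 + 46656 * h2
  have h2' : -u ^ 3 + 6 * u * v + 2 * A * u - 4 * B = 0 := by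
    rcases mul_eq_zero.mp key2 with h | h
    · exact absurd h hsub
    · exact h
  refine ⟨?_, h2', ?_⟩
  · rw [e1]
    exact mul_ne_zero (by norm_num) (pow_ne_zero 2 hsub)
  · have h2'' := h2'
    rw [hu, hv, hA, hB] at h2'' ⊢
    linear_combination (-839808 : K) * h1 + (-839808 : K) * h2 + 419904 * hR
      - ((36 * (x1 + x2) + 6 * b2) / 2) * h2''

/-- The short-form 3-division polynomial at `X = 36x + 3b₂` is `36⁴ ψ₃(x)`. -/
lemma psi3_short {K : Type*} [Field K] (b2 b4 b6 b8 x : K) (hR : 4 * b8 = b2 * b6 - b4 ^ 2) :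
    3 * (36 * x + 3 * b2) ^ 4 + 6 * (-27 * (b2 ^ 2 - 24 * b4)) * (36 * x + 3 * b2) ^ 2
      + 12 * (-54 * (-b2 ^ 3 + 36 * b2 * b4 - 216 * b6)) * (36 * x + 3 * b2)
      - (-27 * (b2 ^ 2 - 24 * b4)) ^ 2
    = 1679616 * (3 * x ^ 4 + b2 * x ^ 3 + 3 * b4 * x ^ 2 + 3 * b6 * x + b8) := by
  linear_combination (-419904 : K) * hR

section Curve

variable (E : WeierstrassCurve ℚ)

/-- Galois equivariance of the x-coordinate. -/
lemma xc_smul (σ : AlgebraicClosure ℚ ≃ₐ[ℚ] AlgebraicClosure ℚ)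
    (P : (E⁄(AlgebraicClosure ℚ)).Point) :
    xc (E⁄(AlgebraicClosure ℚ)) (σ • P) = σ (xc (E⁄(AlgebraicClosure ℚ)) P) := by
  cases P with
  | zero => exact (map_zero σ).symm
  | some x y h => rfl

lemma baseChange_Δ_ne_zero (hΔ : E.Δ ≠ 0) : (E⁄(AlgebraicClosure ℚ)).Δ ≠ 0 := by
  change (E.map (algebraMap ℚ (AlgebraicClosure ℚ))).Δ ≠ 0
  rw [WeierstrassCurve.map_Δ]
  exact (map_ne_zero_iff _ (algebraMap ℚ (AlgebraicClosure ℚ)).injective).mpr hΔ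

lemma finite_card_three :
    Finite (Submodule.torsionBy ℤ (E⁄(AlgebraicClosure ℚ)).Point ((3 : ℕ) : ℤ)) ∧
      Nat.card (Submodule.torsionBy ℤ (E⁄(AlgebraicClosure ℚ)).Point ((3 : ℕ) : ℤ)) ≤ 9 :=
  card_torsionBy_le 3 (three_torsion_finite (E⁄(AlgebraicClosure ℚ)) (by norm_num))

lemma finite_card_five :
    Finite (Submodule.torsionBy ℤ (E⁄(AlgebraicClosure ℚ)).Point ((5 : ℕ) : ℤ)) ∧
      Nat.card (Submodule.torsionBy ℤ (E⁄(AlgebraicClosure ℚ)).Point ((5 : ℕ) : ℤ)) ≤ 25 :=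
  card_torsionBy_le 5 (five_torsion_finite (E⁄(AlgebraicClosure ℚ)) (by norm_num))

theorem nontrivial_three (hΔ : E.Δ ≠ 0) :
    Nontrivial (Submodule.torsionBy ℤ (E⁄(AlgebraicClosure ℚ)).Point ((3 : ℕ) : ℤ)) := by
  obtain ⟨P, hP, h3⟩ := exists_three_torsion (E⁄(AlgebraicClosure ℚ)) (baseChange_Δ_ne_zero E hΔ)
    (by norm_num)
  have hmem : P ∈ Submodule.torsionBy ℤ (E⁄(AlgebraicClosure ℚ)).Point ((3 : ℕ) : ℤ) := by
    rw [Submodule.mem_torsionBy_iff, natCast_zsmul]; exact h3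
  exact nontrivial_of_ne ⟨P, hmem⟩ 0 (fun h => hP (congrArg Subtype.val h))

theorem nontrivial_five (hΔ : E.Δ ≠ 0) :
    Nontrivial (Submodule.torsionBy ℤ (E⁄(AlgebraicClosure ℚ)).Point ((5 : ℕ) : ℤ)) := by
  obtain ⟨P, hP, h5⟩ := exists_five_torsion (E⁄(AlgebraicClosure ℚ)) (baseChange_Δ_ne_zero E hΔ)
    (by norm_num)
  have hmem : P ∈ Submodule.torsionBy ℤ (E⁄(AlgebraicClosure ℚ)).Point ((5 : ℕ) : ℤ) := by
    rw [Submodule.mem_torsionBy_iff, natCast_zsmul]; exact h5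
  exact nontrivial_of_ne ⟨P, hmem⟩ 0 (fun h => hP (congrArg Subtype.val h))

/-- A non-irreducible mod-`n` representation (with small torsion) has a Galois-stable line. -/
lemma exists_line (n : ℕ) [Fact n.Prime]
    (hnt : Nontrivial (Submodule.torsionBy ℤ (E⁄(AlgebraicClosure ℚ)).Point (n : ℤ)))
    (hfin : Finite (Submodule.torsionBy ℤ (E⁄(AlgebraicClosure ℚ)).Point (n : ℤ)))
    (hcard : Nat.card (Submodule.torsionBy ℤ (E⁄(AlgebraicClosure ℚ)).Point (n : ℤ)) < n ^ 3)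
    (h : ¬ GaloisRepIsIrreducible (K := AlgebraicClosure ℚ) ℚ E n) :
    ∃ v : Submodule.torsionBy ℤ (E⁄(AlgebraicClosure ℚ)).Point (n : ℤ), v ≠ 0 ∧
      ∀ σ : AlgebraicClosure ℚ ≃ₐ[ℚ] AlgebraicClosure ℚ, ∃ k : ℕ, k < n ∧ σ • v = k • v := by
  unfold GaloisRepIsIrreducible at h
  push Not at h
  obtain ⟨N, hstable, h0, h1⟩ := h hnt
  obtain ⟨v, hvN, hv0⟩ := (Submodule.ne_bot_iff N).mp h0
  refine ⟨v, hv0, fun σ => ?_⟩
  have hσ := hstable σ v hvN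
  obtain ⟨c, hc⟩ := exists_smul_eq_of_ne_bot_ne_top hcard N h0 h1 hvN hv0 (σ • v) hσ
  have : NeZero n := ⟨(Fact.out : n.Prime).ne_zero⟩
  refine ⟨c.val, ZMod.val_lt c, ?_⟩
  rw [← hc, ← Nat.cast_smul_eq_nsmul (ZMod n), ZMod.natCast_zmod_val]

lemma psi3_baseChange (q : ℚ) :
    psi3 (E⁄(AlgebraicClosure ℚ)) (algebraMap ℚ (AlgebraicClosure ℚ) q) =
      algebraMap ℚ (AlgebraicClosure ℚ) (psi3 (E : Affine ℚ) q) := by
  change psi3 (E.map (algebraMap ℚ (AlgebraicClosure ℚ))) _ = _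
  simp only [psi3, WeierstrassCurve.map_b₂, WeierstrassCurve.map_b₄, WeierstrassCurve.map_b₆,
    WeierstrassCurve.map_b₈, map_add, map_mul, map_pow, map_ofNat]

/-- T3: if the mod-3 representation is not irreducible, `ψ₃` (short form) has a rational root. -/
theorem exists_root_of_not_irreducible_three (hΔ : E.Δ ≠ 0)
    (h : ¬ GaloisRepIsIrreducible (K := AlgebraicClosure ℚ) ℚ E 3) :
    ∃ x₀ : ℚ, 3 * x₀ ^ 4 + 6 * (-27 * E.c₄) * x₀ ^ 2 + 12 * (-54 * E.c₆) * x₀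
      - (-27 * E.c₄) ^ 2 = 0 := by
  obtain ⟨v, hv0, hline⟩ := exists_line E 3 (nontrivial_three E hΔ) (finite_card_three E).1
    (lt_of_le_of_lt (finite_card_three E).2 (by norm_num)) h
  set P : (E⁄(AlgebraicClosure ℚ)).Point := (v : (E⁄(AlgebraicClosure ℚ)).Point) with hP
  have hP0 : P ≠ 0 := fun h => hv0 (Subtype.ext h)
  have h3 : (3 : ℕ) • P = 0 := by
    have := v.2
    rwa [Submodule.mem_torsionBy_iff, natCast_zsmul] at this
  have hfix : ∀ σ : AlgebraicClosure ℚ ≃ₐ[ℚ] AlgebraicClosure ℚ,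
      σ (xc (E⁄(AlgebraicClosure ℚ)) P) = xc (E⁄(AlgebraicClosure ℚ)) P := by
    intro σ
    obtain ⟨k, hk, hσ⟩ := hline σ
    have hσ' : σ • P = k • P := congrArg Subtype.val hσ
    rw [← xc_smul, hσ']
    interval_cases k
    · exfalso
      rw [zero_nsmul] at hσ'
      exact hP0 ((smul_eq_zero_iff_eq σ).mp hσ')
    · rw [one_nsmul]
    · have e : (2 : ℕ) • P = (3 : ℕ) • P - P := by abel
      rw [e, h3, zero_sub, xc_neg]
  obtain ⟨q, hq⟩ := exists_rat_of_fixed _ hfix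
  have hψ := (three_nsmul_eq_zero_iff _ hP0).mp h3
  rw [← hq, psi3_baseChange] at hψ
  have hE : psi3 (E : Affine ℚ) q = 0 :=
    (map_eq_zero_iff _ (algebraMap ℚ (AlgebraicClosure ℚ)).injective).mp hψ
  refine ⟨36 * q + 3 * E.b₂, ?_⟩
  have hR := E.b_relation
  simp only [psi3] at hE
  simp only [c₄, c₆]
  linear_combination (1679616 : ℚ) * hE - 419904 * hR

/-- T5: if the mod-5 representation is not irreducible, there is a rational quadratic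
`x² + u x + v` whose roots are the (short-form) `x`-coordinates of `Q, 2Q` for a point `Q` of
order 5. -/
theorem exists_quad_of_not_irreducible_five (hΔ : E.Δ ≠ 0)
    (h : ¬ GaloisRepIsIrreducible (K := AlgebraicClosure ℚ) ℚ E 5) :
    ∃ u v : ℚ, u ^ 2 - 4 * v ≠ 0 ∧
      -u ^ 3 + 6 * u * v + 2 * (-27 * E.c₄) * u - 4 * (-54 * E.c₆) = 0 ∧
      (-27 * E.c₄) ^ 2 - 2 * (-27 * E.c₄) * v + 5 * v ^ 2 - u ^ 2 * v + 4 * u * (-54 * E.c₆) = 0 ∧
      ∀ x₀ : ℚ, 3 * x₀ ^ 4 + 6 * (-27 * E.c₄) * x₀ ^ 2 + 12 * (-54 * E.c₆) * x₀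
          - (-27 * E.c₄) ^ 2 = 0 →
        x₀ ^ 2 + u * x₀ + v ≠ 0 := by
  have : Fact (Nat.Prime 5) := ⟨Nat.prime_five⟩
  obtain ⟨w, hw0, hline⟩ := exists_line E 5 (nontrivial_five E hΔ) (finite_card_five E).1
    (lt_of_le_of_lt (finite_card_five E).2 (by norm_num)) h
  set Q : (E⁄(AlgebraicClosure ℚ)).Point := (w : (E⁄(AlgebraicClosure ℚ)).Point) with hQ
  have hQ0 : Q ≠ 0 := fun h => hw0 (Subtype.ext h)
  have h5 : (5 : ℕ) • Q = 0 := by
    have := w.2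
    rwa [Submodule.mem_torsionBy_iff, natCast_zsmul] at this
  obtain ⟨h2ne, hx12, hD1, hD2, hdup1, hdup2, hψ1⟩ :=
    five_torsion_data (E⁄(AlgebraicClosure ℚ)) hQ0 h5
  have h52 : (5 : ℕ) • ((2 : ℕ) • Q) = 0 := by
    rw [smul_comm, h5, nsmul_zero]
  obtain ⟨-, -, -, -, -, -, hψ2⟩ := five_torsion_data (E⁄(AlgebraicClosure ℚ)) h2ne h52
  set x1 := xc (E⁄(AlgebraicClosure ℚ)) Q with hx1
  set x2 := xc (E⁄(AlgebraicClosure ℚ)) ((2 : ℕ) • Q) with hx2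
  -- Galois permutes {x1, x2}
  have hperm : ∀ σ : AlgebraicClosure ℚ ≃ₐ[ℚ] AlgebraicClosure ℚ,
      (σ x1 = x1 ∧ σ x2 = x2) ∨ (σ x1 = x2 ∧ σ x2 = x1) := by
    intro σ
    obtain ⟨k, hk, hσ⟩ := hline σ
    have hσ' : σ • Q = k • Q := congrArg Subtype.val hσ
    have hσ2 : σ • ((2 : ℕ) • Q) = (2 : ℕ) • (k • Q) := by
      have hadd : σ • (Q + Q) = σ • Q + σ • Q := smul_add σ Q Q
      rw [two_nsmul, hadd, hσ', ← two_nsmul]
    rw [hx1, hx2, ← xc_smul, ← xc_smul, hσ', hσ2]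
    interval_cases k
    · exfalso
      rw [zero_nsmul] at hσ'
      exact hQ0 ((smul_eq_zero_iff_eq σ).mp hσ')
    · left
      rw [one_nsmul]
      exact ⟨rfl, rfl⟩
    · right
      refine ⟨rfl, ?_⟩
      have e : (2 : ℕ) • ((2 : ℕ) • Q) = (5 : ℕ) • Q - Q := by abel
      rw [e, h5, zero_sub, xc_neg]
    · right
      have e1 : (3 : ℕ) • Q = (5 : ℕ) • Q - (2 : ℕ) • Q := by abel
      have e2 : (2 : ℕ) • ((3 : ℕ) • Q) = (5 : ℕ) • Q + Q := by abel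
      rw [e2, e1, h5, zero_sub, zero_add, xc_neg]
      exact ⟨rfl, rfl⟩
    · left
      have e1 : (4 : ℕ) • Q = (5 : ℕ) • Q - Q := by abel
      have e2 : (2 : ℕ) • ((4 : ℕ) • Q) = (2 : ℕ) • ((5 : ℕ) • Q) - (2 : ℕ) • Q := by abel
      rw [e2, e1, h5, zero_sub, nsmul_zero, zero_sub, xc_neg, xc_neg]
      exact ⟨rfl, rfl⟩
  have hsum : ∀ σ : AlgebraicClosure ℚ ≃ₐ[ℚ] AlgebraicClosure ℚ, σ (x1 + x2) = x1 + x2 := by
    intro σ
    rcases hperm σ with ⟨a, b⟩ | ⟨a, b⟩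
    · rw [map_add, a, b]
    · rw [map_add, a, b, add_comm]
  have hprod : ∀ σ : AlgebraicClosure ℚ ≃ₐ[ℚ] AlgebraicClosure ℚ, σ (x1 * x2) = x1 * x2 := by
    intro σ
    rcases hperm σ with ⟨a, b⟩ | ⟨a, b⟩
    · rw [map_mul, a, b]
    · rw [map_mul, a, b, mul_comm]
  obtain ⟨s₀, hs₀⟩ := exists_rat_of_fixed _ hsum
  obtain ⟨p₀, hp₀⟩ := exists_rat_of_fixed _ hprod
  -- the coefficients of the base-changed curve
  have hb2 : (E⁄(AlgebraicClosure ℚ)).b₂ = algebraMap ℚ (AlgebraicClosure ℚ) E.b₂ :=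
    WeierstrassCurve.map_b₂ E _
  have hb4 : (E⁄(AlgebraicClosure ℚ)).b₄ = algebraMap ℚ (AlgebraicClosure ℚ) E.b₄ :=
    WeierstrassCurve.map_b₄ E _
  have hb6 : (E⁄(AlgebraicClosure ℚ)).b₆ = algebraMap ℚ (AlgebraicClosure ℚ) E.b₆ :=
    WeierstrassCurve.map_b₆ E _
  have hb8 : (E⁄(AlgebraicClosure ℚ)).b₈ = algebraMap ℚ (AlgebraicClosure ℚ) E.b₈ :=
    WeierstrassCurve.map_b₈ E _
  have hR : 4 * algebraMap ℚ (AlgebraicClosure ℚ) E.b₈ =
      algebraMap ℚ (AlgebraicClosure ℚ) E.b₂ * algebraMap ℚ (AlgebraicClosure ℚ) E.b₆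
        - algebraMap ℚ (AlgebraicClosure ℚ) E.b₄ ^ 2 := by
    have := congrArg (algebraMap ℚ (AlgebraicClosure ℚ)) E.b_relation
    simpa only [map_mul, map_sub, map_pow, map_ofNat] using this
  simp only [dD, dN, hb2, hb4, hb6, hb8] at hdup1 hdup2
  simp only [psi3, hb2, hb4, hb6, hb8] at hψ1 hψ2
  set ι := algebraMap ℚ (AlgebraicClosure ℚ) with hι
  have hιinj : Function.Injective ι := (algebraMap ℚ (AlgebraicClosure ℚ)).injective
  -- the rational quadratic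
  refine ⟨-(36 * s₀ + 6 * E.b₂), 1296 * p₀ + 108 * E.b₂ * s₀ + 9 * E.b₂ ^ 2, ?_⟩
  obtain ⟨r1, r2, r3⟩ := quad_relations (ι E.b₂) (ι E.b₄) (ι E.b₆) (ι E.b₈) x1 x2 hR hdup1 hdup2
    hx12 (ι (-27 * E.c₄)) (ι (-54 * E.c₆)) (ι (-(36 * s₀ + 6 * E.b₂)))
    (ι (1296 * p₀ + 108 * E.b₂ * s₀ + 9 * E.b₂ ^ 2))
    (by simp only [c₄, map_mul, map_neg, map_sub, map_pow, map_ofNat])
    (by simp only [c₆, map_mul, map_neg, map_sub, map_add, map_pow, map_ofNat])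
    (by rw [← hs₀]; simp only [map_mul, map_neg, map_add, map_ofNat])
    (by rw [← hs₀, ← hp₀]; simp only [map_mul, map_add, map_pow, map_ofNat])
  refine ⟨?_, ?_, ?_, ?_⟩
  · intro h0
    apply r1
    have := congrArg ι h0
    simpa only [map_mul, map_sub, map_pow, map_ofNat, _root_.map_zero] using this
  · apply hιinj
    simpa only [map_mul, map_sub, map_add, map_neg, map_pow, map_ofNat, _root_.map_zero] using r2
  · apply hιinj
    simpa only [map_mul, map_sub, map_add, map_neg, map_pow, map_ofNat, _root_.map_zero] using r3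
  · intro x₀ hx₀ hquad
    -- ι x₀ is one of X₁, X₂
    have hfac : (ι x₀ - (36 * x1 + 3 * ι E.b₂)) * (ι x₀ - (36 * x2 + 3 * ι E.b₂)) = 0 := by
      have h1 := congrArg ι hquad
      simp only [map_mul, map_add, map_neg, map_pow, map_ofNat, _root_.map_zero, hs₀, hp₀] at h1
      linear_combination h1
    have hx₀' := congrArg ι hx₀
    simp only [c₄, c₆, map_mul, map_sub, map_add, map_neg, map_pow, map_ofNat, _root_.map_zero] at hx₀'
    rcases mul_eq_zero.mp hfac with hc | hc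
    · have hX : ι x₀ = 36 * x1 + 3 * ι E.b₂ := sub_eq_zero.mp hc
      rw [hX, psi3_short _ _ _ _ _ hR] at hx₀'
      exact hψ1 ((mul_eq_zero.mp hx₀').resolve_left (by norm_num))
    · have hX : ι x₀ = 36 * x2 + 3 * ι E.b₂ := sub_eq_zero.mp hc
      rw [hX, psi3_short _ _ _ _ _ hR] at hx₀'
      exact hψ2 ((mul_eq_zero.mp hx₀').resolve_left (by norm_num))

end Curve

end Fermat.Agent.S51.H52
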